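import Fermat.Agent.S55.E1.H353.PTorsion

/-!
# S55, engine E1, block ALG8 (helper353): the abstract count

Pure algebra (Mathlib only).  Setting: `V` an abelian group killed by `p` (think `H¹(G, N)`), `W`
an abelian group with cyclic `p`-torsion (think `H²(G, C)`), `A` an abelian group with an
additive pairing `α : A → Hom(V, W)` (think `A = Hom_G(R, C)`, `α f = ⟨f, ·⟩`), a subgroup
`B = ker α` (think `res Bc(C)`), subgroups `A_i ≤ A` and `K_i ≤ V` with
`α(A_i) = {χ | χ(K_i) = 0}` (think `A_i = j_i ∘ A(J_i)`, `K_i = ker res_i`: this is ALG7).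

* `mem_sup_iff_core` : `a ∈ B ⊔ ⨆ i, A_i ↔ α a` vanishes on `⨅ i, K_i`;
* `card_quotient_core` : if moreover `α` is surjective and `V` is finite, then
  `A ⧸ (B ⊔ ⨆ i, A_i)` is finite of cardinality `|⨅ i, K_i|`.
-/

set_option autoImplicit false
set_option linter.unusedSectionVars false
set_option linter.style.haveILetI false

namespace Fermat.Agent.S55.E1.H353

section Core

variable {p : ℕ} [Fact p.Prime] {A V W : Type} [AddCommGroup A] [AddCommGroup V] [AddCommGroup W]

/-- The subgroup of those `a : A` whose pairing `α a` vanishes on `K`. -/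
def annSub (α : A →+ (V →+ W)) (K : AddSubgroup V) : AddSubgroup A where
  carrier := {a | ∀ v ∈ K, α a v = 0}
  zero_mem' := fun v _ => by simp
  add_mem' := fun {a b} ha hb v hv => by
    rw [map_add, AddMonoidHom.add_apply, ha v hv, hb v hv, add_zero]
  neg_mem' := fun {a} ha v hv => by
    rw [map_neg, AddMonoidHom.neg_apply, ha v hv, neg_zero]

lemma mem_annSub (α : A →+ (V →+ W)) (K : AddSubgroup V) (a : A) :
    a ∈ annSub α K ↔ ∀ v ∈ K, α a v = 0 := Iff.rfl

/-- Every homomorphism from a group killed by `p` to a group without `p`-torsion is zero. -/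
lemma hom_eq_zero_of_no_torsion (hV : ∀ v : V, p • v = 0)
    (hW : ∀ w : W, p • w = 0 → w = 0) (χ : V →+ W) : χ = 0 := by
  ext v
  apply hW
  rw [← map_nsmul, hV, map_zero]

variable (hV : ∀ v : V, p • v = 0) (hcyc : CyclicPTorsion p W)
  (α : A →+ (V →+ W)) (B : AddSubgroup A) (hB : ∀ a, a ∈ B ↔ α a = 0)
  {ι : Type} [Finite ι] (Ai : ι → AddSubgroup A) (Ki : ι → AddSubgroup V)
  (hi : ∀ (i : ι) (χ : V →+ W), (∃ a ∈ Ai i, α a = χ) ↔ ∀ v ∈ Ki i, χ v = 0)

include hB hi in
lemma sup_le_annSub : B ⊔ ⨆ i, Ai i ≤ annSub α (⨅ i, Ki i) := by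
  refine sup_le ?_ (iSup_le ?_)
  · intro b hb v _
    rw [(hB b).1 hb]
    rfl
  · intro i a ha v hv
    exact (hi i (α a)).1 ⟨a, ha, rfl⟩ v ((iInf_le Ki i) hv)

/-- The subspace of `V` attached to the subgroup `K_i`. -/
abbrev subK [Module (ZMod p) V] (Ki : ι → AddSubgroup V) (i : ι) : Submodule (ZMod p) V :=
  AddSubgroup.toZModSubmodule p (Ki i)

lemma mem_iInf_subK [Module (ZMod p) V] (Ki : ι → AddSubgroup V) (v : V) :
    v ∈ (⨅ i, subK (p := p) Ki i) ↔ v ∈ ⨅ i, Ki i := by
  rw [Submodule.mem_iInf, AddSubgroup.mem_iInf]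
  exact forall_congr' fun i => AddSubgroup.mem_toZModSubmodule p

include hB hi in
/-- The case where `W` has nonzero `p`-torsion generated by `g.w₀`. -/
lemma annSub_le_sup_of_pGen [Module (ZMod p) V] (g : PGen p W) :
    annSub α (⨅ i, Ki i) ≤ B ⊔ ⨆ i, Ai i := by
  intro a ha
  -- the functional attached to `α a`
  have hφ : g.homEquivDual V (α a) ∈ Submodule.dualAnnihilator (⨅ i, subK (p := p) Ki i) := by
    rw [Submodule.mem_dualAnnihilator]
    intro v hv
    rw [g.homEquivDual_apply_eq_zero_iff]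
    apply ha
    exact (mem_iInf_subK Ki v).1 hv
  rw [Subspace.dualAnnihilator_iInf_eq] at hφ
  have key : ∃ a' ∈ ⨆ i, Ai i, g.homEquivDual V (α a') = g.homEquivDual V (α a) := by
    refine Submodule.iSup_induction (fun i => (subK (p := p) Ki i).dualAnnihilator)
      (motive := fun ψ => ∃ a' ∈ ⨆ i, Ai i, g.homEquivDual V (α a') = ψ) hφ ?_ ?_ ?_
    · intro i ψ hψ
      rw [Submodule.mem_dualAnnihilator] at hψ
      have h1 : ∀ v ∈ Ki i, (g.homEquivDual V).symm ψ v = 0 := by
        intro v hv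
        rw [g.homEquivDual_symm_apply, hψ v ((AddSubgroup.mem_toZModSubmodule p).2 hv), map_zero]
      obtain ⟨a', ha', hα⟩ := (hi i _).2 h1
      exact ⟨a', (le_iSup Ai i) ha', by rw [hα, AddEquiv.apply_symm_apply]⟩
    · exact ⟨0, zero_mem _, by rw [map_zero, map_zero]⟩
    · rintro ψ ψ' ⟨a₁, h₁, rfl⟩ ⟨a₂, h₂, rfl⟩
      exact ⟨a₁ + a₂, add_mem h₁ h₂, by rw [map_add, map_add]⟩
  obtain ⟨a', ha', hα⟩ := key
  have h2 : α a' = α a := (g.homEquivDual V).injective hα
  have h3 : a - a' ∈ B := by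
    rw [hB, map_sub, h2, sub_self]
  have h4 : a = (a - a') + a' := by abel
  rw [h4]
  exact AddSubgroup.add_mem_sup h3 ha'

include hV hcyc hB hi in
/-- **ALG8, membership criterion.**  `a ∈ B + ∑ A_i` iff `α a` vanishes on `⋂ K_i`. -/
theorem mem_sup_iff_core (a : A) :
    a ∈ B ⊔ ⨆ i, Ai i ↔ ∀ v ∈ ⨅ i, Ki i, α a v = 0 := by
  constructor
  · intro ha
    exact sup_le_annSub α B hB Ai Ki hi ha
  · intro ha
    by_cases hW : ∀ w : W, p • w = 0 → w = 0
    · have h0 : α a = 0 := hom_eq_zero_of_no_torsion hV hW _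
      exact (le_sup_left : B ≤ B ⊔ ⨆ i, Ai i) ((hB a).2 h0)
    · obtain ⟨w₀, hw⟩ := not_forall.1 hW
      obtain ⟨hw₀, hne⟩ := Classical.not_imp.1 hw
      letI : Module (ZMod p) V := AddCommGroup.zmodModule hV
      exact annSub_le_sup_of_pGen α B hB Ai Ki hi (hcyc.pGen w₀ hw₀ hne) ha

/-- The cardinality of the dual of a finite `𝔽_p`-vector space. -/
lemma card_dual_eq (M : Type) [AddCommGroup M] [Module (ZMod p) M] [Finite M] :
    Nat.card (Module.Dual (ZMod p) M) = Nat.card M := by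
  classical
  haveI : Module.Finite (ZMod p) M := Module.Finite.of_finite
  have b := Module.Free.chooseBasis (ZMod p) M
  exact (Nat.card_congr (b.toDualEquiv).toEquiv).symm

lemma finite_dual (M : Type) [AddCommGroup M] [Module (ZMod p) M] [Finite M] :
    Finite (Module.Dual (ZMod p) M) :=
  DFunLike.finite (Module.Dual (ZMod p) M)

section Count

variable [Module (ZMod p) V]

/-- The composite `A → Hom(V, W) ≃ Dual V → Dual Ш`, `Ш = ⋂ K_i`. -/
noncomputable def psiHom (g : PGen p W) (α : A →+ (V →+ W)) (K : AddSubgroup V) :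
    A →+ Module.Dual (ZMod p) ↥(AddSubgroup.toZModSubmodule p K) :=
  ((AddSubgroup.toZModSubmodule p K).dualRestrict).toAddMonoidHom.comp
    ((g.homEquivDual V).toAddMonoidHom.comp α)

lemma psiHom_apply (g : PGen p W) (α : A →+ (V →+ W)) (K : AddSubgroup V) (a : A)
    (v : ↥(AddSubgroup.toZModSubmodule p K)) :
    psiHom g α K a v = g.homEquivDual V (α a) (v : V) := rfl

lemma psiHom_surjective (g : PGen p W) (α : A →+ (V →+ W)) (hsurj : Function.Surjective α)
    (K : AddSubgroup V) : Function.Surjective (psiHom g α K) := by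
  intro ψ
  obtain ⟨φ, hφ⟩ := Subspace.dualRestrict_surjective (W := AddSubgroup.toZModSubmodule p K) ψ
  obtain ⟨a, ha⟩ := hsurj ((g.homEquivDual V).symm φ)
  refine ⟨a, ?_⟩
  change (AddSubgroup.toZModSubmodule p K).dualRestrict (g.homEquivDual V (α a)) = ψ
  rw [ha, AddEquiv.apply_symm_apply, hφ]

lemma mem_ker_psiHom (g : PGen p W) (α : A →+ (V →+ W)) (K : AddSubgroup V) (a : A) :
    a ∈ (psiHom g α K).ker ↔ ∀ v ∈ K, α a v = 0 := by
  rw [AddMonoidHom.mem_ker]
  constructor
  · intro h v hv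
    have h1 := congrArg
      (fun ψ : Module.Dual (ZMod p) ↥(AddSubgroup.toZModSubmodule p K) =>
        ψ ⟨v, (AddSubgroup.mem_toZModSubmodule p).2 hv⟩) h
    change g.homEquivDual V (α a) v = 0 at h1
    exact (g.homEquivDual_apply_eq_zero_iff V (α a) v).1 h1
  · intro h
    ext ⟨v, hv⟩
    change g.homEquivDual V (α a) v = 0
    exact (g.homEquivDual_apply_eq_zero_iff V (α a) v).2
      (h v ((AddSubgroup.mem_toZModSubmodule p).1 hv))

lemma card_quotient_ker_psiHom [Finite V] (g : PGen p W) (α : A →+ (V →+ W))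
    (hsurj : Function.Surjective α) (K : AddSubgroup V) :
    Finite (A ⧸ (psiHom g α K).ker) ∧ Nat.card (A ⧸ (psiHom g α K).ker) = Nat.card ↥K := by
  have e1 : A ⧸ (psiHom g α K).ker ≃+ Module.Dual (ZMod p) ↥(AddSubgroup.toZModSubmodule p K) :=
    QuotientAddGroup.quotientKerEquivOfSurjective _ (psiHom_surjective g α hsurj K)
  haveI : Finite ↥(AddSubgroup.toZModSubmodule p K) :=
    Finite.of_injective (fun x : ↥(AddSubgroup.toZModSubmodule p K) => (x : V))
      Subtype.val_injective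
  haveI : Finite (Module.Dual (ZMod p) ↥(AddSubgroup.toZModSubmodule p K)) := finite_dual _
  refine ⟨Finite.of_equiv _ e1.symm.toEquiv, ?_⟩
  rw [Nat.card_congr e1.toEquiv, card_dual_eq]
  exact Nat.card_congr (Equiv.setCongr (AddSubgroup.coe_toZModSubmodule p K))

end Count

include hV hcyc hB hi in
/-- **ALG8, the count.**  If `α` is surjective and `V` is finite (and `W` has nonzero
`p`-torsion as soon as `V ≠ 0`), then `A ⧸ (B + ∑ A_i)` is finite of cardinality `|⋂ K_i|`. -/
theorem card_quotient_core [Finite V] (hsurj : Function.Surjective α)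
    (hVW : (∃ v : V, v ≠ 0) → ∃ w : W, w ≠ 0 ∧ p • w = 0) :
    Finite (A ⧸ (B ⊔ ⨆ i, Ai i)) ∧
      Nat.card (A ⧸ (B ⊔ ⨆ i, Ai i)) = Nat.card ↥(⨅ i, Ki i) := by
  by_cases hVtriv : ∀ v : V, v = 0
  · -- `V = 0`: both sides are trivial
    have hB' : ∀ a : A, a ∈ B ⊔ ⨆ i, Ai i := by
      intro a
      apply (le_sup_left : B ≤ B ⊔ ⨆ i, Ai i)
      rw [hB]
      ext v
      rw [hVtriv v, map_zero]
      rfl
    haveI : Subsingleton (A ⧸ (B ⊔ ⨆ i, Ai i)) := by
      refine ⟨fun x y => ?_⟩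
      induction x using QuotientAddGroup.induction_on with
      | H a =>
        induction y using QuotientAddGroup.induction_on with
        | H b =>
          rw [QuotientAddGroup.eq]
          exact hB' _
    haveI : Subsingleton ↥(⨅ i, Ki i) :=
      ⟨fun x y => Subtype.ext ((hVtriv x).trans (hVtriv y).symm)⟩
    refine ⟨inferInstance, ?_⟩
    rw [Nat.card_unique, Nat.card_unique]
  · obtain ⟨v₁, hv₁⟩ := not_forall.1 hVtriv
    obtain ⟨w₀, hne, hw₀⟩ := hVW ⟨v₁, hv₁⟩
    letI : Module (ZMod p) V := AddCommGroup.zmodModule hV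
    have hker : (psiHom (hcyc.pGen w₀ hw₀ hne) α (⨅ i, Ki i)).ker = B ⊔ ⨆ i, Ai i := by
      ext a
      rw [mem_ker_psiHom, mem_sup_iff_core hV hcyc α B hB Ai Ki hi a]
    obtain ⟨h1, h2⟩ := card_quotient_ker_psiHom (hcyc.pGen w₀ hw₀ hne) α hsurj (⨅ i, Ki i)
    rw [hker] at h1 h2
    exact ⟨h1, h2⟩

end Core

end Fermat.Agent.S55.E1.H353
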