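import Fermat.Agent.S55.E1.SpecAlg2
import Fermat.Agent.S55.E1.H353.Alg8Core
import Fermat.Agent.S55.T.H415.Additive
import Fermat.Agent.S55.T.CoresH572
import Fermat.Agent.S55.E1.H114.Alg5

/-!
# S55, engine E1, block ALG8 (helper353): `alg8_of : ALG8AssemblySpec`

`ALG8Spec` from `ALG5Spec`, `ALG7Spec`, `ALG7aSpec` (exact types of `E1/SpecAlg2.lean`), by the
abstract count of `Alg8Core.lean`.
-/

set_option autoImplicit false
set_option linter.unusedSectionVars false
set_option linter.style.haveILetI false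

open CategoryTheory CategoryTheory.Limits groupCohomology

namespace Fermat.Agent.S55.E1.H353

noncomputable section

variable {G : Type} [Group G]

/-! ### The pairing as an additive map -/

lemma pair_add_left {N X : Rep.{0} ℤ G} (f f' : homA N X) (x : groupCohomology N 1) :
    pair (f + f') x = pair f x + pair f' x := by
  unfold pair
  rw [T.H415.coeffMap_add]
  rfl

lemma pair_add_right {N X : Rep.{0} ℤ G} (f : homA N X) (x x' : groupCohomology N 1) :
    pair f (x + x') = pair f x + pair f x' := by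
  unfold pair
  rw [map_add, map_add]

lemma pair_zero_right {N X : Rep.{0} ℤ G} (f : homA N X) : pair f (0 : groupCohomology N 1) = 0 := by
  unfold pair
  rw [map_zero, map_zero]

lemma pair_zero_left {N X : Rep.{0} ℤ G} (x : groupCohomology N 1) :
    pair (0 : homA N X) x = 0 := by
  have h := pair_add_left (0 : homA N X) 0 x
  rw [add_zero] at h
  exact left_eq_add.mp h

/-- The pairing `f ↦ ⟨f, ·⟩` as an additive map `A(X) → Hom(H¹(G, N), H²(G, X))`. -/
def pairHom (N X : Rep.{0} ℤ G) : homA N X →+ (groupCohomology N 1 →+ groupCohomology X 2) where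
  toFun f :=
    { toFun := pair f
      map_zero' := pair_zero_right f
      map_add' := pair_add_right f }
  map_zero' := by
    ext x
    exact pair_zero_left x
  map_add' f f' := by
    ext x
    exact pair_add_left f f' x

@[simp] lemma pairHom_apply {N X : Rep.{0} ℤ G} (f : homA N X) (x : groupCohomology N 1) :
    pairHom N X f x = pair f x := rfl

/-- Composition with `j : J ⟶ C` as an additive map `A(J) → A(C)`. -/
def compJ {N J C : Rep.{0} ℤ G} (j : J ⟶ C) : homA N J →+ homA N C where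
  toFun f := f ≫ j
  map_zero' := by simp
  map_add' f f' := by simp

@[simp] lemma compJ_apply {N J C : Rep.{0} ℤ G} (j : J ⟶ C) (f : homA N J) :
    compJ (N := N) j f = f ≫ j := rfl

/-! ### `IsLocSum` as membership in a supremum -/

lemma isLocSum_iff {ι : Type} [Fintype ι] {N C : Rep.{0} ℤ G} {J : ι → Rep.{0} ℤ G}
    (j : ∀ i, J i ⟶ C) (f : homA N C) :
    IsLocSum j f ↔ f ∈ (resBA N C).range ⊔ ⨆ i, (compJ (N := N) (j i)).range := by
  classical
  constructor
  · rintro ⟨fJ, h, rfl⟩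
    rw [add_comm]
    refine AddSubgroup.add_mem_sup ⟨h, rfl⟩ ?_
    refine AddSubgroup.sum_mem _ fun i _ => ?_
    exact (le_iSup (fun i => (compJ (N := N) (j i)).range) i) ⟨fJ i, rfl⟩
  · intro hf
    obtain ⟨b, ⟨h, rfl⟩, c, hc, rfl⟩ := AddSubgroup.mem_sup.1 hf
    have key : ∃ fJ : ∀ i, homA N (J i), c = ∑ i, fJ i ≫ j i := by
      refine AddSubgroup.iSup_induction (fun i => (compJ (N := N) (j i)).range)
        (C := fun c => ∃ fJ : ∀ i, homA N (J i), c = ∑ i, fJ i ≫ j i) hc ?_ ?_ ?_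
      · rintro i _ ⟨g, rfl⟩
        refine ⟨fun k => if hk : k = i then hk ▸ g else 0, ?_⟩
        rw [Finset.sum_eq_single i]
        · simp
        · intro k _ hk
          simp [hk]
        · intro hi
          exact absurd (Finset.mem_univ i) hi
      · exact ⟨fun _ => 0, by simp⟩
      · rintro _ _ ⟨fJ, rfl⟩ ⟨fJ', rfl⟩
        refine ⟨fun i => fJ i + fJ' i, ?_⟩
        rw [← Finset.sum_add_distrib]
        refine Finset.sum_congr rfl fun i _ => ?_
        simp
    obtain ⟨fJ, rfl⟩ := key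
    exact ⟨fJ, h, by rw [add_comm]⟩

/-! ### Torsion and finiteness of `H¹` -/

/-- `H¹(G, N)` is finite for finite `G` and `N`. -/
lemma finite_H1 [Finite G] (N : Rep.{0} ℤ G) [Finite N.V] : Finite (groupCohomology N 1) := by
  haveI : Finite (G → N.V) := Pi.finite
  haveI : Finite (cocycles₁ N) :=
    Finite.of_injective (fun c : cocycles₁ N => (c : G → N.V)) Subtype.val_injective
  refine Finite.of_surjective (fun c : cocycles₁ N => (H1π N).hom c) ?_
  intro x
  induction x using groupCohomology.H1_induction_on with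
  | h f => exact ⟨f, rfl⟩

/-- If `H¹(G, N) ≠ 0` and `p N = 0` then `p ∣ |G|`. -/
lemma dvd_card_of_H1_ne_zero [Finite G] {p : ℕ} [Fact p.Prime] (N : Rep.{0} ℤ G)
    (hN : ∀ n : N.V, p • n = 0) (x : groupCohomology N 1) (hx : x ≠ 0) : p ∣ Nat.card G := by
  have h1 : p • x = 0 := H114.nsmul_H1_eq_zero p N hN x
  have h2 : Nat.card G • x = 0 := T.H572.cardTorsion ℤ G N 1 (by norm_num) x
  rw [← addOrderOf_eq_prime h1 hx]
  exact addOrderOf_dvd_iff_nsmul_eq_zero.2 h2

/-! ### Counting homomorphisms -/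

lemma card_hom_eq_of_pGen {p : ℕ} [Fact p.Prime] {M W : Type} [AddCommGroup M] [AddCommGroup W]
    [Finite M] [Module (ZMod p) M] (g : PGen p W) : Nat.card (M →+ W) = Nat.card M :=
  (Nat.card_congr (g.homEquivDual M).toEquiv).trans (card_dual_eq M)

/-- `|Hom(M, W)| = |M|` for a finite group `M` killed by `p` and a group `W` with cyclic
`p`-torsion, nonzero as soon as `M ≠ 0`. -/
lemma card_hom_eq {p : ℕ} [Fact p.Prime] {M W : Type} [AddCommGroup M] [AddCommGroup W]
    [Finite M] (hM : ∀ m : M, p • m = 0) (hcyc : CyclicPTorsion p W)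
    (hMW : (∃ m : M, m ≠ 0) → ∃ w : W, w ≠ 0 ∧ p • w = 0) :
    Nat.card (M →+ W) = Nat.card M := by
  by_cases hMtriv : ∀ m : M, m = 0
  · haveI : Subsingleton M := ⟨fun a b => (hMtriv a).trans (hMtriv b).symm⟩
    haveI : Subsingleton (M →+ W) := ⟨fun a b => by
      ext m
      rw [hMtriv m, map_zero, map_zero]⟩
    rw [Nat.card_unique, Nat.card_unique]
  · obtain ⟨m₁, hm₁⟩ := not_forall.1 hMtriv
    obtain ⟨w₀, hne, hw₀⟩ := hMW ⟨m₁, hm₁⟩
    letI : Module (ZMod p) M := AddCommGroup.zmodModule hM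
    exact card_hom_eq_of_pGen (hcyc.pGen w₀ hw₀ hne)

/-! ### ALG8 -/

/-- **ALG8** from ALG5, ALG7, ALG7a. -/
theorem alg8_of : ALG8AssemblySpec := by
  intro h5 h7 h7a p hp G _ _ N C γ hNfin hN hC hT6p H _ _ hH hNorm ι _ Dc _ _ φ hφ X γX j hX hgd3
  haveI : Fact p.Prime := ⟨hp⟩
  haveI : Finite N.V := hNfin
  obtain ⟨h5a, h5b, h5c⟩ := h5 p hp G N C γ hNfin hN hC hT6p
  obtain ⟨hcyc, hnz⟩ := h7a p hp G C γ hC
  have hV : ∀ v : groupCohomology N 1, p • v = 0 := H114.nsmul_H1_eq_zero p N hN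
  haveI : Finite (groupCohomology N 1) := finite_H1 N
  -- the kernel of the pairing
  have hB : ∀ a : homA N C, a ∈ (resBA N C).range ↔ pairHom N C a = 0 := by
    intro a
    constructor
    · rintro ⟨h, rfl⟩
      ext x
      exact h5a h x
    · intro ha
      obtain ⟨h, hh⟩ := h5c H hH hNorm a (fun x => congrArg (fun χ => χ x) ha)
      exact ⟨h, hh⟩
  -- ALG7 for every `i`
  have hi : ∀ (i : ι) (χ : groupCohomology N 1 →+ groupCohomology C 2),
      (∃ a ∈ (compJ (N := N) (j i)).range, pairHom N C a = χ) ↔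
        ∀ v ∈ (resAlong (φ i) N 1).toAddMonoidHom.ker, χ v = 0 := by
    intro i χ
    have h := h7 p hp G (Dc i) (φ i) (hφ i) N C γ (X i) (γX i) (j i) hNfin hN hC (hX i) hT6p
      (hgd3 i) χ
    constructor
    · rintro ⟨_, ⟨f, rfl⟩, hf⟩ v hv
      exact h.2 ⟨f, fun x => congrArg (fun χ' => χ' x) hf⟩ v hv
    · intro hχ
      obtain ⟨f, hf⟩ := h.1 (fun x hx => hχ x hx)
      exact ⟨f ≫ j i, ⟨f, rfl⟩, by ext x; exact hf x⟩
  have hmem : ∀ x : groupCohomology N 1,
      x ∈ (⨅ i, (resAlong (φ i) N 1).toAddMonoidHom.ker) ↔ IsLocTriv φ N x := by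
    intro x
    rw [AddSubgroup.mem_iInf]
    rfl
  have hVW : ∀ x : groupCohomology N 1, x ≠ 0 →
      ∃ w : groupCohomology C 2, w ≠ 0 ∧ p • w = 0 :=
    fun x hx => hnz (dvd_card_of_H1_ne_zero N hN x hx)
  refine ⟨?_, ?_, ?_, ?_⟩
  · -- (a)
    intro f
    rw [isLocSum_iff, mem_sup_iff_core hV hcyc (pairHom N C) _ hB _ _ hi f]
    constructor
    · intro h v hv
      exact h v ((hmem v).1 hv)
    · intro h v hv
      exact h v ((hmem v).2 hv)
  · -- (b)
    intro χ
    obtain ⟨f, hf⟩ := h5b χ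
    exact ⟨f, fun x _ => hf x⟩
  · -- (c1)
    exact Finite.of_injective (fun x : shaFin φ N => (x : groupCohomology N 1))
      Subtype.val_injective
  · -- (c2)
    haveI : Finite (shaFin φ N) :=
      Finite.of_injective (fun x : shaFin φ N => (x : groupCohomology N 1))
        Subtype.val_injective
    refine card_hom_eq (p := p) (fun m => Subtype.ext (hV m.1)) hcyc ?_
    rintro ⟨m, hm⟩
    exact hVW m.1 (fun h => hm (Subtype.ext h))

end

end Fermat.Agent.S55.E1.H353
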