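import Fermat.Agent.S55.E1.H353.PTorsion

/-!
# S55, engine E1, block ALG7 (helper353): the abstract local image

Pure algebra (Mathlib only).  Setting: `V = H¹(G, N)`, `V_D = H¹(D, N)`, `res : V → V_D`,
`W = H²(G, C)` (cyclic `p`-torsion), `W_D = H²(D, X)`, `κ : W_D → W` injective on `p`-torsion,
`α_D : A_D → Hom(V_D, W_D)` surjective (ALG5(b) for `D`), `♭ : A_J → A_D` surjective (Shapiro /
coinduction adjunction) and `α_J f x = κ (α_D (f^♭) (res x))` (ALG6).  Then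

`{α_J f : f ∈ A_J} = {χ : V → W | χ (ker res) = 0}`.
-/

set_option autoImplicit false
set_option linter.unusedSectionVars false
set_option linter.style.haveILetI false

namespace Fermat.Agent.S55.E1.H353

section Core

variable {p : ℕ} [Fact p.Prime] {V VD W WD AJ AD : Type} [AddCommGroup V] [AddCommGroup VD]
  [AddCommGroup W] [AddCommGroup WD]

/-- Functionals on `V` vanishing on `ker res` factor through `res` (over the field `𝔽_p`). -/
lemma exists_dual_comp_eq [Module (ZMod p) V] [Module (ZMod p) VD] (res : V →+ VD)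
    (φ : Module.Dual (ZMod p) V) (hφ : ∀ v, res v = 0 → φ v = 0) :
    ∃ φ' : Module.Dual (ZMod p) VD, ∀ v, φ' (res v) = φ v := by
  have h1 : φ ∈ (LinearMap.ker (AddMonoidHom.toZModLinearMap p res)).dualAnnihilator := by
    rw [Submodule.mem_dualAnnihilator]
    intro v hv
    exact hφ v hv
  rw [← LinearMap.range_dualMap_eq_dualAnnihilator_ker] at h1
  obtain ⟨φ', hφ'⟩ := h1
  exact ⟨φ', fun v => congrArg (fun ψ : Module.Dual (ZMod p) V => ψ v) hφ'⟩

/-- The main case of `alg7_core`: `V`, `V_D` are `𝔽_p`-vector spaces and `W_D` has a nonzero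
`p`-torsion element `y₀`. -/
lemma alg7_core_aux [Module (ZMod p) V] [Module (ZMod p) VD] (hcyc : CyclicPTorsion p W)
    (res : V →+ VD) (κ : WD →+ W) (y₀ : WD) (hpy₀ : p • y₀ = 0) (hw₀ : κ y₀ ≠ 0)
    (αD : AD → (VD →+ WD)) (hαD : Function.Surjective αD)
    (αJ : AJ → (V →+ W)) (flat : AJ → AD) (hflat : Function.Surjective flat)
    (hcompat : ∀ f x, αJ f x = κ (αD (flat f) (res x)))
    (χ : V →+ W) (hχ : ∀ v ∈ res.ker, χ v = 0) : ∃ f, αJ f = χ := by
  have hpw : p • κ y₀ = 0 := by rw [← map_nsmul, hpy₀, map_zero]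
  obtain ⟨φ', hφ'⟩ := exists_dual_comp_eq res ((hcyc.pGen (κ y₀) hpw hw₀).homEquivDual V χ)
    (fun v hv => by
      rw [PGen.homEquivDual_apply_eq_zero_iff]
      exact hχ v (AddMonoidHom.mem_ker.2 hv))
  obtain ⟨a, ha⟩ := hαD ((zmodHom p y₀ hpy₀).comp φ'.toAddMonoidHom)
  obtain ⟨f, hf⟩ := hflat a
  refine ⟨f, ?_⟩
  ext x
  rw [hcompat, hf, ha]
  change κ (zmodHom p y₀ hpy₀ (φ' (res x))) = χ x
  rw [map_zmodHom p κ y₀ hpy₀ hpw, hφ']
  exact (hcyc.pGen (κ y₀) hpw hw₀).eHom_homEquivDual V χ x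

/-- **ALG7, abstract form.** -/
theorem alg7_core (hV : ∀ v : V, p • v = 0) (hVD : ∀ v : VD, p • v = 0)
    (hcyc : CyclicPTorsion p W)
    (res : V →+ VD) (κ : WD →+ W) (hκ : ∀ y : WD, p • y = 0 → κ y = 0 → y = 0)
    (hWD : (∃ v : VD, v ≠ 0) → ∃ y : WD, y ≠ 0 ∧ p • y = 0)
    (αD : AD → (VD →+ WD)) (hαD : Function.Surjective αD)
    (αJ : AJ → (V →+ W)) (flat : AJ → AD) (hflat : Function.Surjective flat)
    (hcompat : ∀ f x, αJ f x = κ (αD (flat f) (res x)))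
    (χ : V →+ W) : (∃ f, αJ f = χ) ↔ ∀ v ∈ res.ker, χ v = 0 := by
  constructor
  · rintro ⟨f, rfl⟩ v hv
    rw [hcompat, AddMonoidHom.mem_ker.1 hv, map_zero, map_zero]
  · intro hχ
    by_cases hVDtriv : ∀ v : VD, v = 0
    · -- `V_D = 0`: then `χ = 0`
      obtain ⟨a, ha⟩ := hαD 0
      obtain ⟨f, hf⟩ := hflat a
      refine ⟨f, ?_⟩
      ext x
      rw [hcompat, hf, ha, AddMonoidHom.zero_apply, map_zero]
      exact (hχ x (AddMonoidHom.mem_ker.2 (hVDtriv _))).symm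
    · obtain ⟨v₁, hv₁⟩ := not_forall.1 hVDtriv
      obtain ⟨y₀, hy₀, hpy₀⟩ := hWD ⟨v₁, hv₁⟩
      have hw₀ : κ y₀ ≠ 0 := fun h => hy₀ (hκ y₀ hpy₀ h)
      letI : Module (ZMod p) V := AddCommGroup.zmodModule hV
      letI : Module (ZMod p) VD := AddCommGroup.zmodModule hVD
      exact alg7_core_aux hcyc res κ y₀ hpy₀ hw₀ αD hαD αJ flat hflat hcompat χ hχ

end Core

end Fermat.Agent.S55.E1.H353
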