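import Fermat.Agent.S55.E1.H353.Alg8

/-!
# S55, engine E1, block ALG8 (helper353): the count in quotient form (for LIM3)

Under the hypotheses of `ALG8Spec` (with `ALG5Spec`, `ALG7Spec`, `ALG7aSpec` as inputs), the group

`T := A(C) ⧸ (res Bc(C) + Σ_i j_i ∘ A(J_i))`

is finite and `|T| = |Ш¹_fin|` (`card_T_eq`); `f ∈ locSumSubgroup j ↔ IsLocSum j f`.
-/

set_option autoImplicit false
set_option linter.unusedSectionVars false
set_option linter.style.haveILetI false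

open CategoryTheory CategoryTheory.Limits groupCohomology

namespace Fermat.Agent.S55.E1.H353

noncomputable section

variable {G : Type} [Group G]

/-- The subgroup `res Bc(C) + Σ_i j_i ∘ A(J_i)` of `A(C) = Hom_G(R, C)`. -/
def locSumSubgroup {ι : Type} {N C : Rep.{0} ℤ G} {J : ι → Rep.{0} ℤ G} (j : ∀ i, J i ⟶ C) :
    AddSubgroup (homA N C) :=
  (resBA N C).range ⊔ ⨆ i, (compJ (N := N) (j i)).range

lemma mem_locSumSubgroup_iff {ι : Type} [Fintype ι] {N C : Rep.{0} ℤ G} {J : ι → Rep.{0} ℤ G}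
    (j : ∀ i, J i ⟶ C) (f : homA N C) : f ∈ locSumSubgroup (N := N) j ↔ IsLocSum j f :=
  (isLocSum_iff j f).symm

/-- The kernel of `res_i : H¹(G, N) → H¹(D_i, N)`, and `Ш¹_fin` as their intersection. -/
lemma shaFin_eq_iInf {ι : Type} {Dc : ι → Type} [∀ i, Group (Dc i)] (φ : ∀ i, Dc i →* G)
    (N : Rep.{0} ℤ G) :
    shaFin φ N = ⨅ i, (resAlong (φ i) N 1).toAddMonoidHom.ker := by
  ext x
  rw [AddSubgroup.mem_iInf]
  rfl

/-- **ALG8, quotient form.**  `T = A(C) ⧸ (res Bc(C) + Σ_i j_i A(J_i))` is finite of cardinality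
`|Ш¹_fin|`. -/
theorem card_T_eq (h5 : ALG5Spec) (h7 : ALG7Spec) (h7a : ALG7aSpec)
    (p : ℕ) (hp : p.Prime) [Fintype G] (N C : Rep.{0} ℤ G)
    (γ : groupCohomology C 2) (hNfin : Finite N.V) (hN : ∀ n : N.V, p • n = 0)
    (hC : IsClassModuleAt p C γ) (hT6p : TateNakayamaAtSpec)
    (H : Subgroup G) [H.Normal] [Fintype H] (hH : ∀ h ∈ H, ∀ n : N.V, N.ρ h n = n)
    (hNorm : NormInP p H C)
    (ι : Type) [Fintype ι] (Dc : ι → Type) [∀ i, Group (Dc i)] [∀ i, Finite (Dc i)]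
    (φ : ∀ i, Dc i →* G) (hφ : ∀ i, Function.Injective (φ i))
    (X : ∀ i, Rep.{0} ℤ (Dc i)) (γX : ∀ i, groupCohomology (X i) 2)
    (j : ∀ i, Rep.coind (φ i) (X i) ⟶ C)
    (hX : ∀ i, IsClassModuleAt p (X i) (γX i))
    (hgd3 : ∀ i, ∀ y : groupCohomology (Rep.coind (φ i) (X i)) 2,
      p • y = 0 → (T.coeffMap (j i) 2).hom y = 0 → y = 0) :
    Finite (homA N C ⧸ locSumSubgroup (N := N) j) ∧
      Nat.card (homA N C ⧸ locSumSubgroup (N := N) j) = Nat.card (shaFin φ N) := by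
  haveI : Fact p.Prime := ⟨hp⟩
  haveI : Finite N.V := hNfin
  obtain ⟨h5a, h5b, h5c⟩ := h5 p hp G N C γ hNfin hN hC hT6p
  obtain ⟨hcyc, hnz⟩ := h7a p hp G C γ hC
  have hV : ∀ v : groupCohomology N 1, p • v = 0 := H114.nsmul_H1_eq_zero p N hN
  haveI : Finite (groupCohomology N 1) := finite_H1 N
  have hB : ∀ a : homA N C, a ∈ (resBA N C).range ↔ pairHom N C a = 0 := by
    intro a
    constructor
    · rintro ⟨h, rfl⟩
      ext x
      exact h5a h x
    · intro ha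
      obtain ⟨h, hh⟩ := h5c H hH hNorm a (fun x => congrArg (fun χ => χ x) ha)
      exact ⟨h, hh⟩
  have hi : ∀ (i : ι) (χ : groupCohomology N 1 →+ groupCohomology C 2),
      (∃ a ∈ (compJ (N := N) (j i)).range, pairHom N C a = χ) ↔
        ∀ v ∈ (resAlong (φ i) N 1).toAddMonoidHom.ker, χ v = 0 := by
    intro i χ
    have h := h7 p hp G (Dc i) (φ i) (hφ i) N C γ (X i) (γX i) (j i) hNfin hN hC (hX i) hT6p
      (hgd3 i) χ
    constructor
    · rintro ⟨_, ⟨f, rfl⟩, hf⟩ v hv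
      exact h.2 ⟨f, fun x => congrArg (fun χ' => χ' x) hf⟩ v hv
    · intro hχ
      obtain ⟨f, hf⟩ := h.1 (fun x hx => hχ x hx)
      exact ⟨f ≫ j i, ⟨f, rfl⟩, by ext x; exact hf x⟩
  have hsurj : Function.Surjective (pairHom N C) := by
    intro χ
    obtain ⟨f, hf⟩ := h5b χ
    exact ⟨f, by ext x; exact hf x⟩
  have hVW : (∃ v : groupCohomology N 1, v ≠ 0) →
      ∃ w : groupCohomology C 2, w ≠ 0 ∧ p • w = 0 := by
    rintro ⟨x, hx⟩
    exact hnz (dvd_card_of_H1_ne_zero N hN x hx)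
  have key := card_quotient_core hV hcyc (pairHom N C) (resBA N C).range hB
    (fun i => (compJ (N := N) (j i)).range)
    (fun i => (resAlong (φ i) N 1).toAddMonoidHom.ker) hi hsurj hVW
  rw [shaFin_eq_iInf]
  exact key

end

end Fermat.Agent.S55.E1.H353
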