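import Mathlib

/-!
# S55, engine E1, blocks ALG7/ALG8 (helper353): homomorphisms into a group with cyclic `p`-torsion

Let `W` be an abelian group whose `p`-torsion is generated by one element `w₀ ≠ 0`
(think `W = H²(G, C)` for a class module at `p`), and let `M` be an `𝔽_p`-vector space.
Then `Hom(M, W) ≃+ Dual 𝔽_p M` (`PGen.homEquivDual`).
-/

set_option autoImplicit false
set_option linter.unusedSectionVars false
set_option linter.style.haveILetI false

namespace Fermat.Agent.S55.E1.H353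

/-- The `p`-torsion of `W` is cyclic: any nonzero `p`-torsion element generates it. -/
def CyclicPTorsion (p : ℕ) (W : Type) [AddCommGroup W] : Prop :=
  ∀ w w' : W, p • w = 0 → p • w' = 0 → w ≠ 0 → ∃ k : ℕ, w' = k • w

/-- A generator of the (nonzero) `p`-torsion of `W`. -/
structure PGen (p : ℕ) (W : Type) [AddCommGroup W] where
  /-- the generator -/
  w₀ : W
  tors : p • w₀ = 0
  ne : w₀ ≠ 0
  gen : ∀ w : W, p • w = 0 → ∃ k : ℕ, w = k • w₀

/-- If the `p`-torsion of `W` is cyclic and nonzero, it has a generator. -/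
def CyclicPTorsion.pGen {p : ℕ} {W : Type} [AddCommGroup W] (hcyc : CyclicPTorsion p W)
    (w₀ : W) (hw₀ : p • w₀ = 0) (hne : w₀ ≠ 0) : PGen p W where
  w₀ := w₀
  tors := hw₀
  ne := hne
  gen w hw := hcyc w₀ w hw₀ hw hne

section zmodHom

variable (p : ℕ) {W : Type} [AddCommGroup W]

/-- The homomorphism `ℤ/p → W`, `k ↦ k • w`, for a `p`-torsion element `w`. -/
noncomputable def zmodHom (w : W) (hw : p • w = 0) : ZMod p →+ W :=
  ZMod.lift p ⟨zmultiplesHom W w, by
    change ((p : ℕ) : ℤ) • w = 0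
    rw [natCast_zsmul]
    exact hw⟩

lemma zmodHom_intCast (w : W) (hw : p • w = 0) (m : ℤ) :
    zmodHom p w hw (m : ZMod p) = m • w := by
  unfold zmodHom
  rw [ZMod.lift_coe]
  rfl

lemma zmodHom_natCast (w : W) (hw : p • w = 0) (k : ℕ) :
    zmodHom p w hw (k : ZMod p) = k • w := by
  have := zmodHom_intCast p w hw (k : ℤ)
  rw [natCast_zsmul] at this
  rw [← this]
  simp

/-- Compatibility of `zmodHom` with homomorphisms. -/
lemma map_zmodHom {W' : Type} [AddCommGroup W'] (κ : W →+ W') (w : W) (hw : p • w = 0)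
    (hw' : p • κ w = 0) (k : ZMod p) : κ (zmodHom p w hw k) = zmodHom p (κ w) hw' k := by
  obtain ⟨m, rfl⟩ := ZMod.intCast_surjective k
  rw [zmodHom_intCast, zmodHom_intCast, map_zsmul]

end zmodHom

namespace PGen

variable {p : ℕ} [Fact p.Prime] {W : Type} [AddCommGroup W] (g : PGen p W)

/-- The homomorphism `𝔽_p → W`, `k ↦ k • w₀`. -/
noncomputable def eHom : ZMod p →+ W := zmodHom p g.w₀ g.tors

lemma eHom_intCast (m : ℤ) : g.eHom (m : ZMod p) = m • g.w₀ := zmodHom_intCast p g.w₀ g.tors m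

lemma eHom_natCast (k : ℕ) : g.eHom (k : ZMod p) = k • g.w₀ := zmodHom_natCast p g.w₀ g.tors k

lemma eHom_injective : Function.Injective g.eHom := by
  unfold eHom zmodHom
  rw [ZMod.lift_injective]
  intro m hm
  change m • g.w₀ = 0 at hm
  rw [ZMod.intCast_zmod_eq_zero_iff_dvd]
  have h1 := (addOrderOf_dvd_iff_zsmul_eq_zero).2 hm
  rwa [addOrderOf_eq_prime g.tors g.ne] at h1

lemma nsmul_eHom (k : ZMod p) : p • g.eHom k = 0 := by
  rw [← map_nsmul]
  have : p • k = 0 := by
    rw [nsmul_eq_mul]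
    simp
  rw [this, map_zero]

lemma mem_range_eHom (w : W) (hw : p • w = 0) : w ∈ g.eHom.range := by
  obtain ⟨k, rfl⟩ := g.gen w hw
  exact ⟨(k : ZMod p), g.eHom_natCast k⟩

variable (M : Type) [AddCommGroup M] [Module (ZMod p) M]

omit g in
lemma nsmul_eq_zero_of_zmod (m : M) : p • m = 0 := by
  have h1 : ((p : ℕ) : ZMod p) • m = 0 := by
    rw [ZMod.natCast_self, zero_smul]
  rwa [Nat.cast_smul_eq_nsmul] at h1

lemma apply_mem_range_eHom (χ : M →+ W) (m : M) : χ m ∈ g.eHom.range := by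
  apply g.mem_range_eHom
  rw [← map_nsmul, nsmul_eq_zero_of_zmod M m, map_zero]

/-- The additive map `M → 𝔽_p` attached to `χ : M →+ W`. -/
noncomputable def toFp (χ : M →+ W) : M →+ ZMod p :=
  (AddMonoidHom.ofInjective g.eHom_injective).symm.toAddMonoidHom.comp
    (χ.codRestrict g.eHom.range (g.apply_mem_range_eHom M χ))

lemma eHom_toFp (χ : M →+ W) (m : M) : g.eHom (g.toFp M χ m) = χ m := by
  have h := (AddMonoidHom.ofInjective g.eHom_injective).apply_symm_apply
    (χ.codRestrict g.eHom.range (g.apply_mem_range_eHom M χ) m)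
  have h2 := congrArg Subtype.val h
  exact h2

lemma toFp_comp (φ : M →+ ZMod p) : g.toFp M (g.eHom.comp φ) = φ := by
  ext m
  apply g.eHom_injective
  rw [eHom_toFp]
  rfl

/-- `Hom(M, W) ≃+ Dual 𝔽_p M` when the `p`-torsion of `W` is cyclic generated by `w₀ ≠ 0`. -/
noncomputable def homEquivDual : (M →+ W) ≃+ Module.Dual (ZMod p) M where
  toFun χ := AddMonoidHom.toZModLinearMap p (g.toFp M χ)
  invFun φ := g.eHom.comp φ.toAddMonoidHom
  left_inv χ := by
    ext m
    exact g.eHom_toFp M χ m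
  right_inv φ := by
    ext m
    have := g.toFp_comp M φ.toAddMonoidHom
    exact congrArg (fun f => f m) this
  map_add' χ χ' := by
    ext m
    apply g.eHom_injective
    change g.eHom (g.toFp M (χ + χ') m) = g.eHom (g.toFp M χ m + g.toFp M χ' m)
    rw [map_add, eHom_toFp, eHom_toFp, eHom_toFp]
    rfl

lemma eHom_homEquivDual (χ : M →+ W) (m : M) : g.eHom (g.homEquivDual M χ m) = χ m :=
  g.eHom_toFp M χ m

lemma homEquivDual_apply_eq_zero_iff (χ : M →+ W) (m : M) :
    g.homEquivDual M χ m = 0 ↔ χ m = 0 := by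
  rw [← g.eHom_homEquivDual M χ m]
  constructor
  · intro h
    rw [h, map_zero]
  · intro h
    apply g.eHom_injective
    rw [h, map_zero]

lemma homEquivDual_symm_apply (φ : Module.Dual (ZMod p) M) (m : M) :
    (g.homEquivDual M).symm φ m = g.eHom (φ m) := rfl

end PGen

end Fermat.Agent.S55.E1.H353
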